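import Mathlib
import Fermat.Prelude.Def_FLTPrelim_Modularity
import Fermat.Prelude.Thm_ModularForm_sturm_bound_Gamma0
import Fermat.Prelude.Thm_CongruenceSubgroup_one_mem_strictPeriods_Gamma0

namespace Fermat.Agent.Small

open CongruenceSubgroup UpperHalfPlane
open scoped MatrixGroups

theorem index_Gamma0_two_le : (Gamma0 2).index ≤ 3 := by
  let v : SL(2, ℤ) → {p : ZMod 2 × ZMod 2 // p ≠ 0} := fun g =>
    ⟨(((g 0 0 : ℤ) : ZMod 2), ((g 1 0 : ℤ) : ZMod 2)), by
      intro h
      have hdet := congrArg (fun x : ℤ => (x : ZMod 2)) g.2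
      simp only [Matrix.det_fin_two, Int.cast_sub, Int.cast_mul, Int.cast_one] at hdet
      simp only [Prod.mk_eq_zero] at h
      rw [h.1, h.2] at hdet
      simp at hdet⟩
  let w : SL(2, ℤ) ⧸ Gamma0 2 → {p : ZMod 2 × ZMod 2 // p ≠ 0} := fun q => v q.out
  have hw : Function.Injective w := by
    intro q q' h
    rw [← QuotientGroup.out_eq' q, ← QuotientGroup.out_eq' q', QuotientGroup.eq, Gamma0_mem]
    have h' := congrArg Subtype.val h
    simp only [w, v, Prod.mk.injEq] at h'
    rw [Matrix.SpecialLinearGroup.coe_mul, Matrix.SpecialLinearGroup.coe_inv,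
      Matrix.adjugate_fin_two]
    simp only [Matrix.mul_apply, Fin.sum_univ_two, Matrix.cons_val', Matrix.cons_val_zero,
      Matrix.cons_val_one, Matrix.of_apply, Matrix.cons_val_fin_one]
    push_cast
    rw [← h'.1, ← h'.2]
    ring
  calc (Gamma0 2).index = Nat.card (SL(2, ℤ) ⧸ Gamma0 2) := rfl
    _ ≤ Nat.card {p : ZMod 2 × ZMod 2 // p ≠ 0} := Nat.card_le_card_of_injective w hw
    _ = 3 := by simp [Nat.card_eq_fintype_card]

theorem cuspForm_two_eq_zero_of_index_lt (N : ℕ) [NeZero N] (hN : (Gamma0 N).index ≤ 3)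
    (f : CuspForm (Gamma0 N) 2) : f = 0 := by
  have h := ModularForm.sturm_bound_Gamma0 N (CuspForm.toModularFormₗ f) (fun n hn => ?_)
  · ext z
    exact DFunLike.congr_fun h z
  · have hb : ((2 : ℤ) * ((Gamma0 N).index : ℤ)).toNat / 12 = 0 := by
      apply Nat.div_eq_of_lt
      omega
    rw [hb, Nat.le_zero] at hn
    subst hn
    exact CuspFormClass.qExpansion_coeff_zero f one_pos (CongruenceSubgroup.one_mem_strictPeriods_Gamma0 N)

end Fermat.Agent.Small
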